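import Mathlib
import Fermat.Agent.S48.B.K3.Inputs
import Fermat.Agent.S18.C.GaussSep

/-!
# PROJECT D (S48), part B, seam [B-K3], brick `Gauss1Of` (helper21).  File 1: THE GAUSS VALUATION
# RING OF `ℚ(X₁(M)) = F1 M ⊆ ℚ((q))` AT `ℓ`

Twin of main's `S28/GaussFull` (section `Full`) + `S18/C/{GaussDVR, GaussDVR2, GaussRat}` with
`modularFunctionFieldFull N` replaced by `F1 M`; main's `S28/GaussVal` is generic in the field
`F ⊆ ℚ((q))`, so everything here is short.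

* `coeffMap_int_mem_Ol`, `redL_coeffMap_int` : integer series are `ℓ`-integral, and their reduction is
  the coefficientwise one;
* `isRatio_F1 : IsRatio ℓ (F1 M)` (the generators `j(q^d)`, `h_a` are integer series);
* `O1 ℓ M : ValuationSubring ↥(F1 M)`, `redw1 ℓ M : ↥(O1 ℓ M) →+* 𝔽_ℓ((q))`,
  `redw1_eq_zero_iff_not_isUnit`;
* `resField1 ℓ M` (the range of `redw1`, an intermediate field of `𝔽_ℓ((q)) / 𝔽_ℓ`), `red1` (onto,
  kernel = the nonunits), `Jres`, `kJ1 ℓ M = 𝔽_ℓ(J)` INSIDE the residue field, `mem_kJ1_iff`;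
* `redV1 : ↥(below (RatFunc ℚ) (O1 ℓ M)) →+* ↥(kJ1 ℓ M)`, `compat1`;
* `mem_O1_iff_mem_Vrat` : the trace of `O1` on the `j`-line `RatFunc ℚ` is main's Gauss valuation
  ring `GaussRat.Vrat ℓ 1`.
-/

set_option autoImplicit false
set_option linter.unusedSectionVars false
set_option warn.classDefReducibility false

noncomputable section

namespace Fermat.Agent.S48.B.K3.Gauss1Of.Ring

open HahnSeries ModularCurve IntermediateField Polynomial
open Fermat.Agent.S28 Fermat.Agent.S28.GaussVal Fermat.Agent.S28.GaussFull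
open Fermat.Agent.S48.B.Defs.Model Fermat.Agent.S48.B.K3.Inputs
open Fermat.Agent.S18.C.UnramVal Fermat.Agent.S18.A
open Fermat.Agent.S18.C.GaussDVR (kJ)

variable (ℓ : ℕ) [Fact ℓ.Prime] (M : ℕ) [NeZero M]

/-! ### Integer series -/

/-- integer series are `ℓ`-integral -/
theorem coeffMap_int_mem_Ol (y : LaurentSeries ℤ) : coeffMap (Int.castRingHom ℚ) y ∈ Ol ℓ := by
  rw [mem_Ol_iff]
  intro k
  rw [coeffMap_coeff]
  exact intCast_mem_Zl ℓ _

/-- the reduction of an integer series is the coefficientwise one -/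
theorem redL_coeffMap_int (y : LaurentSeries ℤ) :
    redL ℓ (coeffMap (Int.castRingHom ℚ) y) = coeffMap (Int.castRingHom (ZMod ℓ)) y := by
  ext k
  rw [redL_coeff ℓ (coeffMap_int_mem_Ol ℓ y), coeffMap_coeff, coeffMap_coeff]
  simp

theorem map_map_intCast {R S : Type*} [CommRing R] [CommRing S] (f : R →+* S)
    (p : PowerSeries ℤ) :
    (p.map (Int.castRingHom R)).map f = p.map (Int.castRingHom S) := by
  ext n
  rw [PowerSeries.coeff_map, PowerSeries.coeff_map, PowerSeries.coeff_map]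
  simp

theorem coeffMap_wNorm {R S : Type*} [CommRing R] [CommRing S] (f : R →+* S) :
    coeffMap f (wNorm R) = wNorm S := by
  unfold wNorm
  rw [map_mul, coeffMap_single, map_one, ModularCurve.coeffMap_ofPowerSeries, map_map_intCast]

theorem coeffMap_frickeH {R S : Type*} [CommRing R] [CommRing S] (f : R →+* S) (a : ZMod M) :
    coeffMap f (frickeH R M a) = frickeH S M a := by
  unfold frickeH
  rw [map_mul, coeffMap_qExpand, coeffMap_wNorm, ModularCurve.coeffMap_ofPowerSeries,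
    map_map_intCast]

theorem frickeH_mem_Ol (a : ZMod M) : frickeH ℚ M a ∈ Ol ℓ := by
  rw [← coeffMap_frickeH M (Int.castRingHom ℚ) a]
  exact coeffMap_int_mem_Ol ℓ _

theorem gens_subset_Ol :
    divisorExpansions M ∪ frickeGenerators M ⊆ (Ol ℓ : Set (LaurentSeries ℚ)) := by
  rintro x (hx | ⟨a, -, rfl⟩)
  · exact divisorExpansions_subset_Ol ℓ M hx
  · exact frickeH_mem_Ol ℓ M a

/-! ### The Gauss valuation ring -/

/-- `F1 M` is a field of ratios of `ℓ`-integral series. -/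
theorem isRatio_F1 : IsRatio ℓ (F1 M) := isRatio_adjoin (gens_subset_Ol ℓ M)

/-- **The Gauss valuation ring of `ℚ(X₁(M))` at `ℓ`.** -/
def O1 : ValuationSubring ↥(F1 M) := Ow (isRatio_F1 ℓ M)

/-- **The reduction map** `O1 → 𝔽_ℓ((q))`. -/
def redw1 : ↥(O1 ℓ M) →+* LaurentSeries (ZMod ℓ) := redw (isRatio_F1 ℓ M)

theorem mem_O1_iff {x : ↥(F1 M)} : x ∈ O1 ℓ M ↔ InOw ℓ (F1 M) (x : LaurentSeries ℚ) := Iff.rfl

theorem redw1_apply (x : ↥(O1 ℓ M)) :
    redw1 ℓ M x = redwL ℓ (F1 M) ((x : ↥(F1 M)) : LaurentSeries ℚ) := rfl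

theorem mem_O1_of_mem_Ol {x : ↥(F1 M)} (hx : (x : LaurentSeries ℚ) ∈ Ol ℓ) : x ∈ O1 ℓ M :=
  mem_Ow_of_mem_Ol (isRatio_F1 ℓ M) hx

theorem redw1_of_mem_Ol {x : ↥(F1 M)} (hx : (x : LaurentSeries ℚ) ∈ Ol ℓ) :
    redw1 ℓ M ⟨x, mem_O1_of_mem_Ol ℓ M hx⟩ = redL ℓ (x : LaurentSeries ℚ) := by
  rw [redL_of_mem ℓ hx]
  exact redw_of_mem_Ol (isRatio_F1 ℓ M) hx

theorem redw1_eq_zero_iff_not_isUnit (z : ↥(O1 ℓ M)) : redw1 ℓ M z = 0 ↔ ¬ IsUnit z := by
  constructor
  · intro h0 hu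
    obtain ⟨w, hw⟩ := hu.exists_right_inv
    have := congrArg (redw1 ℓ M) hw
    rw [map_mul, h0, zero_mul, map_one] at this
    exact zero_ne_one this
  · intro hu
    by_contra h0
    apply hu
    have hinv : ((z : ↥(F1 M)))⁻¹ ∈ O1 ℓ M := inv_mem_of_redw_ne_zero (isRatio_F1 ℓ M) z h0
    have hz0 : (z : ↥(F1 M)) ≠ 0 := by
      intro h
      apply h0
      have : z = 0 := Subtype.ext h
      rw [this, map_zero]
    refine IsUnit.of_mul_eq_one (⟨(z : ↥(F1 M))⁻¹, hinv⟩ : ↥(O1 ℓ M)) ?_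
    apply Subtype.ext
    show (z : ↥(F1 M)) * (z : ↥(F1 M))⁻¹ = 1
    exact mul_inv_cancel₀ hz0

/-! ### The residue field -/

/-- The range of `redw1` as a subfield of `𝔽_ℓ((q))`. -/
def resSubfield1 : Subfield (LaurentSeries (ZMod ℓ)) :=
  { (redw1 ℓ M).range with
    inv_mem' := by
      rintro x ⟨z, rfl⟩
      by_cases h0 : redw1 ℓ M z = 0
      · rw [h0, inv_zero]
        exact Subring.zero_mem _
      · have hu : IsUnit z := by
          by_contra hnu
          exact h0 ((redw1_eq_zero_iff_not_isUnit ℓ M z).mpr hnu)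
        obtain ⟨w, hw⟩ := hu.exists_right_inv
        refine ⟨w, ?_⟩
        have := congrArg (redw1 ℓ M) hw
        rw [map_mul, map_one] at this
        exact (inv_eq_of_mul_eq_one_right this).symm }

/-- **The residue field of `O1`** as an intermediate field of `𝔽_ℓ((q)) / 𝔽_ℓ`. -/
def resField1 : IntermediateField (ZMod ℓ) (LaurentSeries (ZMod ℓ)) :=
  (resSubfield1 ℓ M).toIntermediateField (fun c => by
    refine ⟨((c.val : ℕ) : ↥(O1 ℓ M)), ?_⟩
    rw [map_natCast, ← map_natCast (algebraMap (ZMod ℓ) (LaurentSeries (ZMod ℓ))),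
      ZMod.natCast_zmod_val])

theorem mem_resField1 {x : LaurentSeries (ZMod ℓ)} :
    x ∈ resField1 ℓ M ↔ ∃ z, redw1 ℓ M z = x :=
  Iff.rfl

theorem redw1_mem_resField1 (z : ↥(O1 ℓ M)) : redw1 ℓ M z ∈ resField1 ℓ M := ⟨z, rfl⟩

/-- The reduction map onto the residue field. -/
def red1 : ↥(O1 ℓ M) →+* ↥(resField1 ℓ M) :=
  (redw1 ℓ M).codRestrict (resField1 ℓ M) (redw1_mem_resField1 ℓ M)

@[simp]
theorem coe_red1 (z : ↥(O1 ℓ M)) :
    ((red1 ℓ M z : ↥(resField1 ℓ M)) : LaurentSeries (ZMod ℓ)) = redw1 ℓ M z := rfl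

theorem red1_surjective : Function.Surjective (red1 ℓ M) := by
  rintro ⟨x, z, rfl⟩
  exact ⟨z, rfl⟩

theorem red1_eq_zero_iff (u : ↥(O1 ℓ M)) : red1 ℓ M u = 0 ↔ ¬ IsUnit u := by
  rw [← redw1_eq_zero_iff_not_isUnit, Subtype.ext_iff]
  rfl

/-! ### `j` -/

theorem jFull1_mem_O1 : jFull1 M ∈ O1 ℓ M :=
  mem_O1_of_mem_Ol ℓ M (x := jFull1 M) (jq_mem_Ol ℓ)

theorem redw1_jFull1 : redw1 ℓ M ⟨jFull1 M, jFull1_mem_O1 ℓ M⟩ = jqModC (ZMod ℓ) := by
  have h := redw1_of_mem_Ol ℓ M (x := jFull1 M) (jq_mem_Ol ℓ)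
  rw [← redL_jq ℓ]
  exact h

/-- `J` as an element of the residue field -/
def Jres : ↥(resField1 ℓ M) := ⟨jqModC (ZMod ℓ), ⟨_, redw1_jFull1 ℓ M⟩⟩

@[simp]
theorem coe_Jres : ((Jres ℓ M : ↥(resField1 ℓ M)) : LaurentSeries (ZMod ℓ)) = jqModC (ZMod ℓ) := rfl

theorem red1_jFull1 : red1 ℓ M ⟨jFull1 M, jFull1_mem_O1 ℓ M⟩ = Jres ℓ M :=
  Subtype.ext (redw1_jFull1 ℓ M)

/-- **`𝔽_ℓ(J)` inside the residue field of `O1`** -/
abbrev kJ1 : IntermediateField (ZMod ℓ) ↥(resField1 ℓ M) := (ZMod ℓ)⟮Jres ℓ M⟯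

theorem kJ1_map : (kJ1 ℓ M).map (resField1 ℓ M).val = kJ ℓ := by
  rw [IntermediateField.adjoin_map, Set.image_singleton]
  rfl

theorem mem_kJ1_iff (z : ↥(resField1 ℓ M)) :
    z ∈ kJ1 ℓ M ↔ (z : LaurentSeries (ZMod ℓ)) ∈ kJ ℓ := by
  rw [← kJ1_map ℓ M, IntermediateField.mem_map]
  constructor
  · intro h
    exact ⟨z, h, rfl⟩
  · rintro ⟨w, hw, hwz⟩
    have : w = z := Subtype.ext hwz
    rwa [← this]

attribute [local instance] algBelow

/-! ### The `j`-line -/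

section JLine

/-- the series of a polynomial in an element of a subfield of `ℚ((q))` (any `ℚ`-algebra structure on
the subfield) -/
theorem coe_aeval_sub {F : IntermediateField ℚ (LaurentSeries ℚ)} [inst : Algebra ℚ ↥F] (x : ↥F)
    (p : ℚ[X]) :
    ((aeval x p : ↥F) : LaurentSeries ℚ) = aeval (x : LaurentSeries ℚ) p := by
  rw [aeval_def, aeval_def]
  have h := Polynomial.hom_eval₂ p (algebraMap ℚ ↥F) (algebraMap ↥F (LaurentSeries ℚ)) x
  have hc : (algebraMap ↥F (LaurentSeries ℚ)).comp (algebraMap ℚ ↥F) =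
      algebraMap ℚ (LaurentSeries ℚ) := RingHom.ext_rat _ _
  rw [hc] at h
  exact h

/-- the series of a rational function of an element of a subfield of `ℚ((q))` -/
theorem coe_evalRat_sub {F : IntermediateField ℚ (LaurentSeries ℚ)} [inst : Algebra ℚ ↥F] {x : ↥F}
    (hx : Transcendental ℚ x) (f : RatFunc ℚ) :
    ((Chart.evalRat hx f : ↥F) : LaurentSeries ℚ) =
      aeval (x : LaurentSeries ℚ) f.num / aeval (x : LaurentSeries ℚ) f.denom := by
  rw [Chart.evalRat_apply, IntermediateField.coe_div, coe_aeval_sub, coe_aeval_sub]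

/-- the series `f(j) ∈ ℚ((q))` of a rational function `f` -/
def jSeries (f : RatFunc ℚ) : LaurentSeries ℚ := aeval jq f.num / aeval jq f.denom

theorem jSeries_mem_adjoin (f : RatFunc ℚ) : jSeries f ∈ IntermediateField.adjoin ℚ {jq} := by
  have h : ∀ p : ℚ[X], aeval jq p ∈ IntermediateField.adjoin ℚ {jq} := by
    intro p
    have h1 : aeval jq p ∈ Algebra.adjoin ℚ {jq} := Polynomial.aeval_mem_adjoin_singleton ℚ jq
    exact IntermediateField.algebra_adjoin_le_adjoin ℚ _ h1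
  exact div_mem (h _) (h _)

theorem coe_algebraMap_F1 (f : RatFunc ℚ) :
    ((algebraMap (RatFunc ℚ) ↥(F1 M) f : ↥(F1 M)) : LaurentSeries ℚ) = jSeries f := by
  rw [algebraMap_F0, coe_evalRat_sub]
  rfl

theorem coe_algebraMap_full (N : ℕ) [NeZero N] (f : RatFunc ℚ) :
    ((algebraMap (RatFunc ℚ) ↥(modularFunctionFieldFull N) f : ↥(modularFunctionFieldFull N)) :
      LaurentSeries ℚ) = jSeries f := by
  rw [Fermat.Agent.S18.C.ModularInst.algebraMap_F0, coe_evalRat_sub]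
  rfl

end JLine

/-! ### The reduction of the Gauss valuation ring of the `j`-line -/

theorem closure_le_kJ :
    Subfield.closure ({jqModC (ZMod ℓ)} : Set (LaurentSeries (ZMod ℓ))) ≤ (kJ ℓ).toSubfield := by
  rw [Subfield.closure_le, Set.singleton_subset_iff]
  exact IntermediateField.subset_adjoin _ _ rfl

theorem redw1_mem_kJ (x : ↥(below (RatFunc ℚ) (O1 ℓ M))) :
    redw1 ℓ M (incl (RatFunc ℚ) (O1 ℓ M) x) ∈ kJ ℓ := by
  have hT : Transcendental (ZMod ℓ) (redL ℓ jq) := by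
    rw [redL_jq]
    exact transcendental_J ℓ
  have hx : InOw ℓ (F1 M) (jSeries (x : RatFunc ℚ)) := by
    rw [← coe_algebraMap_F1 M]
    exact x.2
  have h1 := redwL_mem_closure (F := F1 M) (t := jq) (jq_mem_F1 M) (jq_mem_Ol ℓ) hT
    (jSeries_mem_adjoin (x : RatFunc ℚ)) hx
  rw [redL_jq] at h1
  rw [redw1_apply, coe_incl, coe_algebraMap_F1]
  exact closure_le_kJ ℓ h1

/-- The reduction of the trace of `O1` on the `j`-line, with values in `𝔽_ℓ(J)`. -/
def redV1 : ↥(below (RatFunc ℚ) (O1 ℓ M)) →+* ↥(kJ1 ℓ M) :=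
  ((red1 ℓ M).comp (incl (RatFunc ℚ) (O1 ℓ M))).codRestrict (kJ1 ℓ M) (fun x => by
    rw [mem_kJ1_iff]
    exact redw1_mem_kJ ℓ M x)

theorem coe_redV1 (x : ↥(below (RatFunc ℚ) (O1 ℓ M))) :
    ((redV1 ℓ M x : ↥(kJ1 ℓ M)) : ↥(resField1 ℓ M)) =
      red1 ℓ M (incl (RatFunc ℚ) (O1 ℓ M) x) := rfl

theorem compat1 (x : ↥(below (RatFunc ℚ) (O1 ℓ M))) :
    algebraMap ↥(kJ1 ℓ M) ↥(resField1 ℓ M) (redV1 ℓ M x) =
      red1 ℓ M (incl (RatFunc ℚ) (O1 ℓ M) x) := rfl

/-! ### The trace of `O1` on the `j`-line is main's Gauss valuation ring -/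

theorem inOw_mono {F F' : IntermediateField ℚ (LaurentSeries ℚ)} (h : F ≤ F')
    {x : LaurentSeries ℚ} (hx : InOw ℓ F x) : InOw ℓ F' x := by
  obtain ⟨a, b, haF, ha, hbF, hb, hrb, hab⟩ := hx
  exact ⟨a, b, h haF, ha, h hbF, hb, hrb, hab⟩

theorem full_one_le_F1 : modularFunctionFieldFull 1 ≤ F1 M := by
  refine le_trans ?_ (full_le_F1 M)
  rw [modularFunctionFieldFull, adjoin_le_iff]
  rintro x ⟨d, hd, hd1, rfl⟩
  exact jqd_mem_full M (dvd_trans hd1 (one_dvd M))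

/-- **the trace of `O1` on the `j`-line is the Gauss valuation ring `Vrat ℓ 1` of main** -/
theorem mem_O1_iff_mem_Vrat (f : RatFunc ℚ) :
    algebraMap (RatFunc ℚ) ↥(F1 M) f ∈ O1 ℓ M ↔ f ∈ Fermat.Agent.S18.C.GaussRat.Vrat ℓ 1 := by
  have hV : f ∈ Fermat.Agent.S18.C.GaussRat.Vrat ℓ 1 ↔
      InOw ℓ (modularFunctionFieldFull 1) (jSeries f) := by
    rw [← coe_algebraMap_full 1 f]
    exact Iff.rfl
  rw [hV, mem_O1_iff, coe_algebraMap_F1]
  constructor
  · intro hX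
    by_contra hn
    have hXF : jSeries f ∈ modularFunctionFieldFull 1 := by
      rw [← coe_algebraMap_full 1 f]
      exact Subtype.coe_prop _
    have hinv : InOw ℓ (modularFunctionFieldFull 1) (jSeries f)⁻¹ :=
      (inOw_or_inv (isRatio_full ℓ 1) hXF).resolve_left hn
    have h0 : redwL ℓ (modularFunctionFieldFull 1) (jSeries f)⁻¹ = 0 := by
      by_contra hne
      apply hn
      have := inOw_inv_of_redwL_ne_zero hinv hne
      rwa [inv_inv] at this
    obtain ⟨y, hy, hXy⟩ := (redwL_eq_zero_iff hinv).mp h0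
    have hX0 : jSeries f ≠ 0 := by
      intro h
      apply hn
      rw [h]
      exact inOw_zero
    have hy' : InOw ℓ (F1 M) (jSeries f * y) := hX.mul (inOw_mono ℓ (full_one_le_F1 M) hy)
    have h1 : (1 : LaurentSeries ℚ) = lL ℓ * (jSeries f * y) := by
      rw [← mul_assoc, mul_comm (lL ℓ), mul_assoc, ← hXy, mul_inv_cancel₀ hX0]
    have hin : InOw ℓ (F1 M) (lL ℓ * (jSeries f * y)) := by
      rw [← h1]
      exact inOw_one
    have h2 : redwL ℓ (F1 M) (lL ℓ * (jSeries f * y)) = 0 :=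
      (redwL_eq_zero_iff hin).mpr ⟨_, hy', rfl⟩
    rw [← h1, redwL_one] at h2
    exact one_ne_zero h2
  · exact inOw_mono ℓ (full_one_le_F1 M)

end Fermat.Agent.S48.B.K3.Gauss1Of.Ring

end
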