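import Mathlib
import Fermat.Agent.S48.B.K3.Gauss1Of.Ring
import Fermat.Agent.S48.B.Red.Seams

/-!
# PROJECT D (S48), part B, seam [B-K3], brick `Gauss1Of` (helper21).  File 2: FULL RESIDUE DEGREE
# OVER `𝔽_ℓ` FROM THE DEGREE OVER ANY FIELD OF CHARACTERISTIC `ℓ`

`F1C M k` is generated over `k` by the reductions of the integer series of `F1 M`, and these form a
multiplicative monoid.  Hence, when `F1C M k` is finite over a subfield `E ⊇ k`:

* `exists_integral_indep` : there are `n = [F1C M k : E]` integer series `y i` of `F1 M` whose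
  reductions are an `E`-independent family of `F1C M k` (no Nakayama, no bases: a field which is
  algebraic over `E` is SPANNED over `E` by any multiplicative monoid generating it);
* `linearIndependent_of_coeffExt` : THE EASY DIRECTION OF THE DESCENT `k → 𝔽_ℓ` (`k` of characteristic
  `ℓ`): if the reductions mod `ℓ` of the `y i`, extended to `k`, are independent over `k(j̄)`, then
  the reductions are independent over `𝔽_ℓ(J)` (coefficient extension `𝔽_ℓ((q)) → k((q))` is an
  injective ring homomorphism mapping `𝔽_ℓ(J)` into `k(j̄)`).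
-/

set_option autoImplicit false
set_option linter.unusedSectionVars false
set_option warn.classDefReducibility false
set_option linter.style.haveILetI false
set_option synthInstance.maxHeartbeats 400000
set_option maxHeartbeats 1000000

noncomputable section

namespace Fermat.Agent.S48.B.K3.Gauss1Of.Indep

open HahnSeries ModularCurve IntermediateField Polynomial
open Fermat.Agent.S28 Fermat.Agent.S28.GaussVal Fermat.Agent.S28.GaussFull
open Fermat.Agent.S48.B.Defs.Model Fermat.Agent.S48.B.K3.Inputs
open Fermat.Agent.S48.B.K3.Gauss1Of.Ring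
open Fermat.Agent.S48.B.Red.Seams (jC coe_jC)
open Fermat.Agent.S18.C.GaussDVR (kJ)

/-! ### Generic: a field algebraic over `E` is spanned over `E` by any generating monoid -/

section Generic

variable {K L : Type*} [Field K] [Field L] [Algebra K L]

/-- If the multiplicative monoid `S` generates the field `L` over `K` and `L` is algebraic over the
intermediate field `E`, then `S` generates `L` as an `E`-algebra. -/
theorem adjoin_monoid_eq_top (S : Submonoid L)
    (hS : IntermediateField.adjoin K (S : Set L) = ⊤) (E : IntermediateField K L)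
    [Algebra.IsAlgebraic ↥E L] : Algebra.adjoin ↥E (S : Set L) = ⊤ := by
  rw [eq_top_iff]
  intro x _
  have hx : x ∈ IntermediateField.adjoin K (S : Set L) := by
    rw [hS]
    exact IntermediateField.mem_top
  induction hx using IntermediateField.adjoin_induction with
  | mem z hz => exact Algebra.subset_adjoin hz
  | algebraMap c =>
    rw [IsScalarTower.algebraMap_apply K ↥E L]
    exact Subalgebra.algebraMap_mem _ _
  | add a b _ _ iha ihb => exact Subalgebra.add_mem _ (iha trivial) (ihb trivial)
  | inv a _ iha =>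
    have hal : IsAlgebraic ↥E ((⟨a, iha trivial⟩ : ↥(Algebra.adjoin ↥E (S : Set L))) : L) :=
      Algebra.IsAlgebraic.isAlgebraic _
    exact Subalgebra.inv_mem_of_algebraic _ hal
  | mul a b _ _ iha ihb => exact Subalgebra.mul_mem _ (iha trivial) (ihb trivial)

/-- ... hence `S` spans `L` over `E`. -/
theorem span_monoid_eq_top (S : Submonoid L)
    (hS : IntermediateField.adjoin K (S : Set L) = ⊤) (E : IntermediateField K L)
    [Algebra.IsAlgebraic ↥E L] : Submodule.span ↥E (S : Set L) = ⊤ := by
  have h := Algebra.adjoin_eq_span ↥E (S : Set L)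
  rw [adjoin_monoid_eq_top S hS E, Submonoid.closure_eq] at h
  rw [← h]
  rfl

/-- an `E`-independent family of full cardinality inside a generating monoid -/
theorem exists_indep_in_monoid (S : Submonoid L)
    (hS : IntermediateField.adjoin K (S : Set L) = ⊤) (E : IntermediateField K L)
    [FiniteDimensional ↥E L] (n : ℕ) (hn : n = Module.finrank ↥E L) :
    ∃ f : Fin n → L, (∀ i, f i ∈ S) ∧ LinearIndependent ↥E f := by
  haveI : Algebra.IsAlgebraic ↥E L := Algebra.IsAlgebraic.of_finite _ _
  have hspan := span_monoid_eq_top S hS E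
  have hrank : Module.finrank ↥E ↥(Submodule.span ↥E (S : Set L)) = n := by
    rw [hspan, finrank_top, hn]
  obtain ⟨f, hfS, -, hli⟩ := Submodule.exists_fun_fin_finrank_span_eq ↥E (S : Set L)
  exact ⟨f ∘ Fin.cast hrank.symm, fun i => hfS _, hli.comp _ (Fin.cast_injective _)⟩

variable {Ω : Type*} [Field Ω] [Algebra K Ω]

/-- a generating set of an intermediate field generates it from the inside -/
theorem adjoin_inside_eq_top (T : Set Ω) :
    IntermediateField.adjoin K
      {x : ↥(IntermediateField.adjoin K T) | (x : Ω) ∈ T} = ⊤ := by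
  have h1 : (IntermediateField.adjoin K
      {x : ↥(IntermediateField.adjoin K T) | (x : Ω) ∈ T}).map
        (IntermediateField.adjoin K T).val = IntermediateField.adjoin K T := by
    rw [IntermediateField.adjoin_map]
    congr 1
    ext z
    constructor
    · rintro ⟨y, hy, rfl⟩
      exact hy
    · intro hz
      exact ⟨⟨z, IntermediateField.subset_adjoin K T hz⟩, hz, rfl⟩
  have h2 : (⊤ : IntermediateField K ↥(IntermediateField.adjoin K T)).map
      (IntermediateField.adjoin K T).val = IntermediateField.adjoin K T := by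
    rw [← AlgHom.fieldRange_eq_map, IntermediateField.fieldRange_val]
  exact IntermediateField.map_injective _ (h1.trans h2.symm)

end Generic

variable (M : ℕ) [NeZero M]

/-! ### The monoid of the integral reductions -/

section Span

variable (k : Type*) [Field k]

/-- the reductions of the integer series of `F1 M`, as a submonoid of `F1C M k` -/
def redMonoid : Submonoid ↥(F1C M k) where
  carrier := {x | (x : LaurentSeries k) ∈ integralReductions M k}
  one_mem' := by
    refine ⟨1, ?_, ?_⟩
    · rw [map_one]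
      exact (F1 M).one_mem
    · rw [map_one]
      rfl
  mul_mem' := by
    rintro a b ⟨y, hy, hay⟩ ⟨y', hy', hby⟩
    refine ⟨y * y', ?_, ?_⟩
    · rw [map_mul]
      exact (F1 M).mul_mem hy hy'
    · rw [map_mul, ← hay, ← hby]
      rfl

theorem mem_redMonoid {x : ↥(F1C M k)} :
    x ∈ redMonoid M k ↔ (x : LaurentSeries k) ∈ integralReductions M k := Iff.rfl

theorem adjoin_redMonoid : IntermediateField.adjoin k (redMonoid M k : Set ↥(F1C M k)) = ⊤ :=
  adjoin_inside_eq_top (integralReductions M k)

variable {k}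

/-- **an independent family of full cardinality consisting of reductions of integer series** -/
theorem exists_integral_indep (E : IntermediateField k ↥(F1C M k))
    [FiniteDimensional ↥E ↥(F1C M k)] (n : ℕ) (hn : n = Module.finrank ↥E ↥(F1C M k)) :
    ∃ (y : Fin n → LaurentSeries ℤ) (hy : ∀ i, coeffMap (Int.castRingHom ℚ) (y i) ∈ F1 M),
      LinearIndependent ↥E (fun i =>
        (⟨coeffMap (Int.castRingHom k) (y i), coeffMap_mem_F1C M k (hy i)⟩ : ↥(F1C M k))) := by
  obtain ⟨f, hfS, hli⟩ := exists_indep_in_monoid (redMonoid M k) (adjoin_redMonoid M k) E n hn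
  choose y hy hfy using hfS
  refine ⟨y, hy, ?_⟩
  have hcomp : (fun i : Fin n => (⟨coeffMap (Int.castRingHom k) (y i),
      coeffMap_mem_F1C M k (hy i)⟩ : ↥(F1C M k))) = f := by
    funext i
    exact Subtype.ext (hfy i).symm
  rw [hcomp]
  exact hli

end Span

/-! ### The easy direction of the descent `k → 𝔽_ℓ` -/

section Transfer

variable (ℓ : ℕ) [Fact ℓ.Prime] (k : Type*) [Field k] [CharP k ℓ]

/-- the coefficient extension `𝔽_ℓ((q)) → k((q))` -/
def coeffExt : LaurentSeries (ZMod ℓ) →+* LaurentSeries k :=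
  coeffMap (ZMod.castHom (dvd_refl ℓ) k)

theorem coeffExt_injective : Function.Injective (coeffExt ℓ k) := (coeffExt ℓ k).injective

theorem coeffExt_coeffMap_int (y : LaurentSeries ℤ) :
    coeffExt ℓ k (coeffMap (Int.castRingHom (ZMod ℓ)) y) = coeffMap (Int.castRingHom k) y := by
  ext n
  unfold coeffExt
  rw [coeffMap_coeff, coeffMap_coeff, coeffMap_coeff]
  simp

theorem coeffExt_jqModC : coeffExt ℓ k (jqModC (ZMod ℓ)) = jqModC k :=
  coeffMap_jqModC _

theorem coeffExt_algebraMap (a : ZMod ℓ) :
    coeffExt ℓ k (algebraMap (ZMod ℓ) (LaurentSeries (ZMod ℓ)) a) =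
      algebraMap k (LaurentSeries k) (ZMod.castHom (dvd_refl ℓ) k a) := by
  unfold coeffExt
  rw [algebraMap_laurentSeries_eq_single, algebraMap_laurentSeries_eq_single, coeffMap_single]

/-- the coefficient extension maps `𝔽_ℓ(J)` into `k(j̄)` -/
theorem coeffExt_mem_adjoin {c : LaurentSeries (ZMod ℓ)} (hc : c ∈ kJ ℓ) :
    coeffExt ℓ k c ∈ IntermediateField.adjoin k {jqModC k} := by
  unfold kJ at hc
  induction hc using IntermediateField.adjoin_induction with
  | mem z hz =>
    rw [Set.mem_singleton_iff] at hz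
    rw [hz, coeffExt_jqModC]
    exact IntermediateField.subset_adjoin k _ rfl
  | algebraMap a =>
    rw [coeffExt_algebraMap]
    exact IntermediateField.algebraMap_mem _ _
  | add a b _ _ iha ihb =>
    rw [map_add]
    exact add_mem iha ihb
  | inv a _ iha =>
    rw [map_inv₀]
    exact inv_mem iha
  | mul a b _ _ iha ihb =>
    rw [map_mul]
    exact mul_mem iha ihb

variable {k}

theorem adjoin_jC_map :
    (k⟮jC M k⟯).map (F1C M k).val = IntermediateField.adjoin k {jqModC k} := by
  rw [IntermediateField.adjoin_map, Set.image_singleton]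
  rfl

/-- **THE EASY DIRECTION OF THE DESCENT**: integer series of `F1 M` whose reductions in `k((q))` are
independent over `k(j̄)` have reductions mod `ℓ` which are independent over `𝔽_ℓ(J)`. -/
theorem linearIndependent_of_coeffExt {n : ℕ} (y : Fin n → LaurentSeries ℤ)
    (hy : ∀ i, coeffMap (Int.castRingHom ℚ) (y i) ∈ F1 M)
    (z : Fin n → ↥(resField1 ℓ M))
    (hz : ∀ i, ((z i : ↥(resField1 ℓ M)) : LaurentSeries (ZMod ℓ)) =
      coeffMap (Int.castRingHom (ZMod ℓ)) (y i))
    (hli : LinearIndependent ↥(k⟮jC M k⟯) (fun i =>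
      (⟨coeffMap (Int.castRingHom k) (y i), coeffMap_mem_F1C M k (hy i)⟩ : ↥(F1C M k)))) :
    LinearIndependent ↥(kJ1 ℓ M) z := by
  rw [Fintype.linearIndependent_iff]
  intro c hc i
  -- the relation as an identity of series over `𝔽_ℓ`
  have h1 : ∑ j, (((c j : ↥(kJ1 ℓ M)) : ↥(resField1 ℓ M)) : LaurentSeries (ZMod ℓ)) *
      ((z j : ↥(resField1 ℓ M)) : LaurentSeries (ZMod ℓ)) = 0 := by
    have h := congrArg (resField1 ℓ M).val hc
    rw [map_sum, map_zero] at h
    rw [← h]
    refine Finset.sum_congr rfl fun j _ => ?_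
    rfl
  -- extended to `k`
  have h2 : ∑ j, coeffExt ℓ k (((c j : ↥(kJ1 ℓ M)) : ↥(resField1 ℓ M)) : LaurentSeries (ZMod ℓ)) *
      coeffMap (Int.castRingHom k) (y j) = 0 := by
    have h := congrArg (coeffExt ℓ k) h1
    rw [map_sum, map_zero] at h
    rw [← h]
    refine Finset.sum_congr rfl fun j _ => ?_
    rw [map_mul, hz, coeffExt_coeffMap_int]
  -- the coefficients as elements of `k(j̄) ⊆ F1C M k`
  have h3 : ∀ j, ∃ e : ↥(k⟮jC M k⟯), (((e : ↥(k⟮jC M k⟯)) : ↥(F1C M k)) : LaurentSeries k) =
      coeffExt ℓ k (((c j : ↥(kJ1 ℓ M)) : ↥(resField1 ℓ M)) : LaurentSeries (ZMod ℓ)) := by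
    intro j
    have hm : coeffExt ℓ k (((c j : ↥(kJ1 ℓ M)) : ↥(resField1 ℓ M)) : LaurentSeries (ZMod ℓ)) ∈
        IntermediateField.adjoin k {jqModC k} :=
      coeffExt_mem_adjoin ℓ k ((mem_kJ1_iff ℓ M _).mp (c j).2)
    rw [← adjoin_jC_map M, IntermediateField.mem_map] at hm
    obtain ⟨w, hw, hwc⟩ := hm
    exact ⟨⟨w, hw⟩, hwc⟩
  choose e he using h3
  have h4 : ∑ j, e j • (⟨coeffMap (Int.castRingHom k) (y j), coeffMap_mem_F1C M k (hy j)⟩ :
      ↥(F1C M k)) = 0 := by
    apply Subtype.ext
    have h := map_sum (F1C M k).val (fun j => e j • (⟨coeffMap (Int.castRingHom k) (y j),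
      coeffMap_mem_F1C M k (hy j)⟩ : ↥(F1C M k))) Finset.univ
    have h' : (((∑ j, e j • (⟨coeffMap (Int.castRingHom k) (y j), coeffMap_mem_F1C M k (hy j)⟩ :
        ↥(F1C M k)) : ↥(F1C M k))) : LaurentSeries k) =
        ∑ j, (F1C M k).val (e j • (⟨coeffMap (Int.castRingHom k) (y j),
          coeffMap_mem_F1C M k (hy j)⟩ : ↥(F1C M k))) := h
    rw [h', ZeroMemClass.coe_zero, ← h2]
    refine Finset.sum_congr rfl fun j _ => ?_
    rw [← he j]
    rfl
  have h5 := Fintype.linearIndependent_iff.mp hli e h4 i
  have h6 : coeffExt ℓ k (((c i : ↥(kJ1 ℓ M)) : ↥(resField1 ℓ M)) : LaurentSeries (ZMod ℓ)) = 0 := by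
    rw [← he i, h5]
    rfl
  have h7 : (((c i : ↥(kJ1 ℓ M)) : ↥(resField1 ℓ M)) : LaurentSeries (ZMod ℓ)) = 0 :=
    coeffExt_injective ℓ k (by rw [h6, map_zero])
  exact Subtype.ext (Subtype.ext h7)

end Transfer

end Fermat.Agent.S48.B.K3.Gauss1Of.Indep

end
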